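import Fermat.Agent.S53.AbstractDefs

set_option autoImplicit false

/-!
# Tangent bridge (helper416)

From finiteness of the set of `L`-points over the dual numbers `k[ε]` (taken with the
`Algebra 𝒪 k[ε]` instance used by `GaloisRep.TangentFinite`) to the field `tangent` (H6) of
`IsRigidFamily`.
-/

namespace Fermat.Agent.S53.H416

open IsLocalRing GaloisRep TrivSqZeroExt

section TanAlg

variable (𝒪 : Type) [CommRing 𝒪] [IsLocalRing 𝒪]

/-- The `Algebra 𝒪 k[ε]` instance used in `GaloisRep.TangentFinite`. -/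
@[reducible] noncomputable def tanAlg : Algebra 𝒪 (DualNumber (ResidueField 𝒪)) :=
  ((algebraMap (ResidueField 𝒪) (DualNumber (ResidueField 𝒪))).comp
      (algebraMap 𝒪 (ResidueField 𝒪))).toAlgebra

theorem tanAlg_algebraMap_apply (a : 𝒪) :
    @algebraMap 𝒪 (DualNumber (ResidueField 𝒪)) _ _ (tanAlg 𝒪) a
      = TrivSqZeroExt.inl (residue 𝒪 a) := rfl

/-- `k[ε]` with the `TangentFinite` algebra structure is an Artinian test algebra. -/
theorem isArtinianTestAlgebra_dualNumber :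
    @IsArtinianTestAlgebra 𝒪 _ (DualNumber (ResidueField 𝒪)) _ _ (tanAlg 𝒪) := by
  let _i : Algebra 𝒪 (DualNumber (ResidueField 𝒪)) := tanAlg 𝒪
  refine ⟨⟨fun a ha => ?_⟩, fun y => ?_, ?_⟩
  · -- local hom
    have h1 : IsUnit (TrivSqZeroExt.fst (algebraMap 𝒪 (DualNumber (ResidueField 𝒪)) a)) :=
      (TrivSqZeroExt.isUnit_iff_isUnit_fst).1 ha
    rw [tanAlg_algebraMap_apply, TrivSqZeroExt.fst_inl] at h1
    by_contra hna
    have : residue 𝒪 a = 0 := (residue_eq_zero_iff a).2 ((mem_maximalIdeal a).2 hna)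
    rw [this] at h1
    exact not_isUnit_zero h1
  · -- residue surjective
    obtain ⟨b, rfl⟩ := residue_surjective y
    obtain ⟨a, ha⟩ := residue_surjective (TrivSqZeroExt.fst b)
    refine ⟨a, ?_⟩
    show residue _ (algebraMap 𝒪 (DualNumber (ResidueField 𝒪)) a) = residue _ b
    rw [tanAlg_algebraMap_apply, ← sub_eq_zero, ← map_sub, residue_eq_zero_iff, mem_maximalIdeal,
      mem_nonunits_iff, TrivSqZeroExt.isUnit_iff_isUnit_fst]
    simp [ha]
  · have : Module.Finite (ResidueField 𝒪) (DualNumber (ResidueField 𝒪)) :=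
      inferInstanceAs (Module.Finite (ResidueField 𝒪) (ResidueField 𝒪 × ResidueField 𝒪))
    exact IsArtinianRing.of_finite (ResidueField 𝒪) (DualNumber (ResidueField 𝒪))

end TanAlg

section Bridge

variable {𝒪 : Type} [CommRing 𝒪] [IsLocalRing 𝒪]
variable {B : Type} [CommRing B] [IsLocalRing B] [Algebra 𝒪 B]

/-- For a test algebra `B` killed by `m_𝒪` with `m_B ^ 2 = 0` and `0 ≠ d ∈ m_B`, there is a
local `𝒪`-algebra hom `B → k[ε]` (for the `TangentFinite` algebra structure) not killing `d`. -/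
theorem exists_algHom_dualNumber (hB : IsArtinianTestAlgebra 𝒪 B)
    (hsq : maximalIdeal B ^ 2 = ⊥) (hO : (maximalIdeal 𝒪).map (algebraMap 𝒪 B) = ⊥)
    {d : B} (hd : d ∈ maximalIdeal B) (hd0 : d ≠ 0) :
    ∃ φ : @AlgHom 𝒪 B (DualNumber (ResidueField 𝒪)) _ _ _ _ (tanAlg 𝒪),
      IsLocalHom (φ : B →+* DualNumber (ResidueField 𝒪)) ∧ φ d ≠ 0 := by
  classical
  let _i : Algebra 𝒪 (DualNumber (ResidueField 𝒪)) := tanAlg 𝒪
  have := hB.isLocalHom
  -- the section σ : k → B
  have hker : ∀ a ∈ maximalIdeal 𝒪, algebraMap 𝒪 B a = 0 := fun a ha => by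
    have := Ideal.mem_map_of_mem (algebraMap 𝒪 B) ha
    rw [hO] at this
    exact (Ideal.mem_bot.1 this)
  let σ : ResidueField 𝒪 →+* B := Ideal.Quotient.lift (maximalIdeal 𝒪) (algebraMap 𝒪 B) hker
  have hσ : ∀ a : 𝒪, σ (residue 𝒪 a) = algebraMap 𝒪 B a := fun a => rfl
  -- the retraction ψ : B → k
  have hbij : Function.Bijective ((residue B).comp σ) := by
    refine ⟨RingHom.injective _, fun y => ?_⟩
    obtain ⟨a, ha⟩ := hB.residue_surjective y
    exact ⟨residue 𝒪 a, ha⟩
  let e : ResidueField 𝒪 ≃+* ResidueField B := RingEquiv.ofBijective _ hbij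
  let ψ : B →+* ResidueField 𝒪 := (e.symm : ResidueField B →+* ResidueField 𝒪).comp (residue B)
  have hψσ : ∀ t, ψ (σ t) = t := fun t => by
    show e.symm (residue B (σ t)) = t
    exact e.symm_apply_apply t
  have hψ0 : ∀ b, ψ b = 0 ↔ b ∈ maximalIdeal B := fun b => by
    show e.symm (residue B b) = 0 ↔ _
    rw [map_eq_zero_iff _ e.symm.injective, residue_eq_zero_iff]
  have hμ : ∀ b, b - σ (ψ b) ∈ maximalIdeal B := fun b => by
    rw [← hψ0, map_sub, hψσ, sub_self]
  have hmm : ∀ {u v : B}, u ∈ maximalIdeal B → v ∈ maximalIdeal B → u * v = 0 := by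
    intro u v hu hv
    have : u * v ∈ maximalIdeal B ^ 2 := by
      rw [pow_two]; exact Ideal.mul_mem_mul hu hv
    rw [hsq] at this
    exact Ideal.mem_bot.1 this
  -- `B` as a `k`-vector space and a functional not killing `d`
  let _ia : Algebra (ResidueField 𝒪) B := σ.toAlgebra
  obtain ⟨lam, hlam⟩ : ∃ lam : Module.Dual (ResidueField 𝒪) B, lam d ≠ 0 := by
    by_contra hcon
    push Not at hcon
    exact hd0 ((Module.forall_dual_apply_eq_zero_iff (ResidueField 𝒪) d).1 hcon)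
  have hlin : ∀ (t : ResidueField 𝒪) (v : B), lam (σ t * v) = t * lam v := fun t v => by
    have : σ t * v = t • v := (Algebra.smul_def t v).symm
    rw [this, map_smul, smul_eq_mul]
  let D : B → ResidueField 𝒪 := fun b => lam (b - σ (ψ b))
  have hD_add : ∀ a b, D (a + b) = D a + D b := fun a b => by
    show lam _ = lam _ + lam _
    rw [← map_add]
    congr 1
    rw [map_add, map_add]; ring
  have hD_mul : ∀ a b, D (a * b) = ψ a * D b + ψ b * D a := fun a b => by
    show lam _ = ψ a * lam _ + ψ b * lam _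
    rw [← hlin, ← hlin, ← map_add]
    congr 1
    have h0 := hmm (hμ a) (hμ b)
    rw [map_mul, map_mul]
    linear_combination h0
  have hD_one : D 1 = 0 := by
    show lam _ = 0
    rw [map_one, map_one, sub_self, map_zero]
  have hD_alg : ∀ a : 𝒪, D (algebraMap 𝒪 B a) = 0 := fun a => by
    show lam _ = 0
    rw [← hσ a, hψσ, sub_self, map_zero]
  have hψ_alg : ∀ a : 𝒪, ψ (algebraMap 𝒪 B a) = residue 𝒪 a := fun a => by
    rw [← hσ a, hψσ]
  let φ₀ : B →+* DualNumber (ResidueField 𝒪) :=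
    { toFun := fun b => TrivSqZeroExt.inl (ψ b) + TrivSqZeroExt.inr (D b)
      map_one' := by
        rw [hD_one, map_one, TrivSqZeroExt.inr_zero, add_zero]; rfl
      map_mul' := fun a b => by
        rw [hD_mul, map_mul]
        ext
        · simp
        · simp [mul_comm]
      map_zero' := by
        have : D 0 = 0 := by
          show lam _ = 0
          rw [map_zero, map_zero, sub_self, map_zero]
        rw [this, map_zero, TrivSqZeroExt.inr_zero, add_zero]; rfl
      map_add' := fun a b => by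
        rw [hD_add, map_add]
        ext <;> simp [add_add_add_comm] }
  have hφ₀ : ∀ b, φ₀ b = TrivSqZeroExt.inl (ψ b) + TrivSqZeroExt.inr (D b) := fun b => rfl
  let φ : B →ₐ[𝒪] DualNumber (ResidueField 𝒪) :=
    { φ₀ with
      commutes' := fun a => by
        show φ₀ (algebraMap 𝒪 B a) = _
        rw [hφ₀, hD_alg, hψ_alg, TrivSqZeroExt.inr_zero, add_zero]
        rfl }
  refine ⟨φ, ⟨fun b hb => ?_⟩, ?_⟩
  · have h1 : IsUnit (TrivSqZeroExt.fst (φ₀ b)) := (TrivSqZeroExt.isUnit_iff_isUnit_fst).1 hb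
    rw [hφ₀] at h1
    simp only [TrivSqZeroExt.fst_add, TrivSqZeroExt.fst_inl, TrivSqZeroExt.fst_inr, add_zero] at h1
    by_contra hnb
    have : ψ b = 0 := (hψ0 b).2 ((mem_maximalIdeal b).2 hnb)
    rw [this] at h1
    exact not_isUnit_zero h1
  · intro h0
    have h1 : TrivSqZeroExt.snd (φ₀ d) = 0 := by
      have : φ₀ d = 0 := h0
      rw [this]; rfl
    rw [hφ₀] at h1
    simp only [TrivSqZeroExt.snd_add, TrivSqZeroExt.snd_inl, TrivSqZeroExt.snd_inr, zero_add] at h1
    have hψd : ψ d = 0 := (hψ0 d).2 hd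
    have : D d = lam d := by
      show lam (d - σ (ψ d)) = lam d
      rw [hψd, map_zero, sub_zero]
    rw [this] at h1
    exact hlam h1

end Bridge

section Main

variable {𝒪 : Type} [CommRing 𝒪] [IsLocalRing 𝒪]

/-- **Tangent bridge.** If `L` satisfies (H1) and (H3) and has finitely many points over `k[ε]`
(with the `TangentFinite` algebra structure), then `L` satisfies (H6). -/
theorem tangent_of_finite (ι : Type) (c : ι → 𝒪) (L : PointFamily 𝒪 ι)
    (hres : ∀ ⦃A : Type⦄ [CommRing A] [IsLocalRing A] [Algebra 𝒪 A],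
      IsArtinianTestAlgebra 𝒪 A → ∀ ⦃x : ι → A⦄, L x →
        ∀ i, x i - algebraMap 𝒪 A (c i) ∈ maximalIdeal A)
    (hmap : ∀ ⦃A B : Type⦄ [CommRing A] [IsLocalRing A] [Algebra 𝒪 A]
      [CommRing B] [IsLocalRing B] [Algebra 𝒪 B],
      IsArtinianTestAlgebra 𝒪 A → IsArtinianTestAlgebra 𝒪 B →
      ∀ (φ : A →ₐ[𝒪] B), IsLocalHom (φ : A →+* B) → ∀ ⦃x : ι → A⦄,
        L x → L (fun i => φ (x i)))
    (hfin : Finite {x : ι → DualNumber (ResidueField 𝒪) //
      @L (DualNumber (ResidueField 𝒪)) _ _ (tanAlg 𝒪) x}) :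
    ∃ F : Finset ι, ∀ ⦃B : Type⦄ [CommRing B] [IsLocalRing B] [Algebra 𝒪 B],
      IsArtinianTestAlgebra 𝒪 B → maximalIdeal B ^ 2 = ⊥ →
      (maximalIdeal 𝒪).map (algebraMap 𝒪 B) = ⊥ →
      ∀ ⦃x : ι → B⦄, L x → (∀ i ∈ F, x i = algebraMap 𝒪 B (c i)) →
        ∀ i, x i = algebraMap 𝒪 B (c i) := by
  classical
  let _i : Algebra 𝒪 (DualNumber (ResidueField 𝒪)) := tanAlg 𝒪
  have : Fintype {x : ι → DualNumber (ResidueField 𝒪) // L x} := Fintype.ofFinite _
  let c' : ι → DualNumber (ResidueField 𝒪) :=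
    fun i => algebraMap 𝒪 (DualNumber (ResidueField 𝒪)) (c i)
  let pick : {x : ι → DualNumber (ResidueField 𝒪) // L x} → Finset ι := fun y =>
    if h : ∃ i, y.1 i ≠ c' i then {h.choose} else ∅
  refine ⟨Finset.univ.biUnion pick, ?_⟩
  intro B _ _ _ hB hsq hO x hx hF i
  by_contra hne
  have hd : x i - algebraMap 𝒪 B (c i) ∈ maximalIdeal B := hres hB hx i
  have hd0 : x i - algebraMap 𝒪 B (c i) ≠ 0 := sub_ne_zero.2 hne
  obtain ⟨φ, hφloc, hφd⟩ := exists_algHom_dualNumber hB hsq hO hd hd0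
  have hy : L (fun j => φ (x j)) :=
    hmap hB (isArtinianTestAlgebra_dualNumber 𝒪) φ hφloc hx
  set y : {x : ι → DualNumber (ResidueField 𝒪) // L x} := ⟨fun j => φ (x j), hy⟩ with hydef
  have hyne : ∃ j, y.1 j ≠ c' j := by
    refine ⟨i, fun h => hφd ?_⟩
    have h' : φ (x i) = algebraMap 𝒪 (DualNumber (ResidueField 𝒪)) (c i) := h
    rw [map_sub, h', AlgHom.commutes, sub_self]
  have hmem : hyne.choose ∈ Finset.univ.biUnion pick := by
    refine Finset.mem_biUnion.2 ⟨y, Finset.mem_univ _, ?_⟩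
    show hyne.choose ∈ pick y
    simp only [pick, dif_pos hyne, Finset.mem_singleton]
  have h1 := hF _ hmem
  apply hyne.choose_spec
  show φ (x hyne.choose) = algebraMap 𝒪 (DualNumber (ResidueField 𝒪)) (c hyne.choose)
  rw [h1, AlgHom.commutes]

end Main

end Fermat.Agent.S53.H416
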